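import Fermat.Agent.S13.Lin
import Fermat.Agent.Lib.Frobenius
import Fermat.Prelude.Def_FLTPrelim_Ramification
import Fermat.Prelude.Def_FLTPrelim_CofixedLine

/-!
# From local information to a cofixed line
-/

set_option autoImplicit false

namespace Fermat.Agent.S13

open WeierstrassCurve WeierstrassCurve.Affine WeierstrassCurve.Affine.Point

local notation "Qbar" => AlgebraicClosure ℚ
local notation "GQ" => (AlgebraicClosure ℚ ≃ₐ[ℚ] AlgebraicClosure ℚ)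

variable (W' : Affine ℚ) (p : ℕ)

lemma mem_tors_iff {x : (W'⁄Qbar).Point} :
    x ∈ Submodule.torsionBy ℤ (W'⁄Qbar).Point p ↔ p • x = 0 := by
  rw [Submodule.mem_torsionBy_iff, natCast_zsmul]

lemma coe_smul_tors (σ : GQ) (x : Submodule.torsionBy ℤ (W'⁄Qbar).Point p) :
    ((σ • x : Submodule.torsionBy ℤ (W'⁄Qbar).Point p) : (W'⁄Qbar).Point) = σ • x.1 := rfl

/-- the action of `σ` as a linear map -/
noncomputable def sLin (σ : GQ) : Submodule.torsionBy ℤ (W'⁄Qbar).Point p →ₗ[ZMod p]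
    Submodule.torsionBy ℤ (W'⁄Qbar).Point p :=
  AddMonoidHom.toZModLinearMap p
    (DistribSMul.toAddMonoidHom (Submodule.torsionBy ℤ (W'⁄Qbar).Point p) σ)

lemma sLin_apply (σ : GQ) (x : Submodule.torsionBy ℤ (W'⁄Qbar).Point p) :
    sLin W' p σ x = σ • x := rfl

variable {W' p}
variable (N : Submodule (ZMod p) (Submodule.torsionBy ℤ (W'⁄Qbar).Point p))

/-- automorphisms acting trivially on `N` -/
def H1 : Subgroup GQ where
  carrier := {σ | ∀ x ∈ N, σ • x = x}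
  mul_mem' {σ τ} hσ hτ x hx := by rw [mul_smul, hτ x hx, hσ x hx]
  one_mem' x _ := one_smul _ x
  inv_mem' {σ} hσ x hx := by
    conv_lhs => rw [← hσ x hx]
    rw [inv_smul_smul]

/-- automorphisms acting trivially on the quotient by `N` -/
def H2 (hN : IsGaloisStable ℚ N) : Subgroup GQ where
  carrier := {σ | ∀ x, σ • x - x ∈ N}
  mul_mem' {σ τ} hσ hτ x := by
    have : (σ * τ) • x - x = σ • (τ • x - x) + (σ • x - x) := by
      rw [mul_smul, smul_sub]; abel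
    rw [this]
    exact N.add_mem (hN σ _ (hτ x)) (hσ x)
  one_mem' x := by rw [one_smul, sub_self]; exact N.zero_mem
  inv_mem' {σ} hσ x := by
    have : σ⁻¹ • x - x = -(σ⁻¹ • (σ • x - x)) := by
      rw [smul_sub, inv_smul_smul]; abel
    rw [this]
    exact N.neg_mem (hN σ⁻¹ _ (hσ x))

lemma H1_normal (hN : IsGaloisStable ℚ N) : (H1 N).Normal := by
  refine ⟨fun σ hσ g x hx => ?_⟩
  rw [mul_smul, mul_smul, hσ _ (hN g⁻¹ x hx), smul_inv_smul]

lemma H2_normal (hN : IsGaloisStable ℚ N) : (H2 N hN).Normal := by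
  refine ⟨fun σ hσ g x => ?_⟩
  have : (g * σ * g⁻¹) • x - x = g • (σ • (g⁻¹ • x) - g⁻¹ • x) := by
    rw [mul_smul, mul_smul, smul_sub, smul_inv_smul]
  rw [this]
  exact hN g _ (hσ _)

/-- the stabiliser of a point is open -/
lemma isOpen_stabilizer_point (x : (W'⁄Qbar).Point) : IsOpen {σ : GQ | σ • x = x} := by
  rcases x with _ | ⟨a, b, h⟩
  · convert isOpen_univ
    ext σ
    simp only [Set.mem_ofPred_eq, Set.mem_univ, iff_true]
    rfl
  · have h1 := stabilizer_isOpen_of_isIntegral (K := ℚ) (L := Qbar) a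
    have h2 := stabilizer_isOpen_of_isIntegral (K := ℚ) (L := Qbar) b
    convert h1.inter h2 using 1
    ext σ
    simp only [Set.mem_ofPred_eq, Set.mem_inter_iff, SetLike.mem_coe, MulAction.mem_stabilizer_iff]
    rw [algEquiv_smul_def, Point.map_some]
    simp

lemma isOpen_fix [Finite (Submodule.torsionBy ℤ (W'⁄Qbar).Point p)] :
    IsOpen {σ : GQ | ∀ x : Submodule.torsionBy ℤ (W'⁄Qbar).Point p, σ • x = x} := by
  have : {σ : GQ | ∀ x : Submodule.torsionBy ℤ (W'⁄Qbar).Point p, σ • x = x}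
      = ⋂ x : Submodule.torsionBy ℤ (W'⁄Qbar).Point p, {σ : GQ | σ • x.1 = x.1} := by
    ext σ
    simp only [Set.mem_ofPred_eq, Set.mem_iInter]
    exact forall_congr' fun x => Subtype.ext_iff
  rw [this]
  exact isOpen_iInter_of_finite fun x => isOpen_stabilizer_point x.1

lemma isOpen_of_fix_le [Finite (Submodule.torsionBy ℤ (W'⁄Qbar).Point p)] (H : Subgroup GQ)
    (h : ∀ σ : GQ, (∀ x : Submodule.torsionBy ℤ (W'⁄Qbar).Point p, σ • x = x) → σ ∈ H) :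
    IsOpen (H : Set GQ) := by
  apply Subgroup.isOpen_of_mem_nhds H (g := 1)
  exact Filter.mem_of_superset ((isOpen_fix (W' := W') (p := p)).mem_nhds
    (fun x => one_smul _ x)) h

lemma zmod_smul_coe [NeZero p] (k : ZMod p) (x : Submodule.torsionBy ℤ (W'⁄Qbar).Point p) :
    ((k • x : Submodule.torsionBy ℤ (W'⁄Qbar).Point p) : (W'⁄Qbar).Point) = k.val • x.1 := by
  conv_lhs => rw [← ZMod.natCast_zmod_val k, Nat.cast_smul_eq_nsmul]
  rfl

/-- **Glue**: local information at all primes produces a cofixed line. -/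
theorem cofixed_of_local (hp : p.Prime) (hp2 : p ≠ 2)
    (hcard : Nat.card (Submodule.torsionBy ℤ (W'⁄Qbar).Point p) = p ^ 2)
    (hN : IsGaloisStable ℚ N) (h0 : N ≠ ⊥) (h1 : N ≠ ⊤)
    (hM : ∀ H : Subgroup GQ, H.Normal → IsOpen (H : Set GQ) →
      (∀ ℓ : ℕ, ℓ.Prime → ∃ A : ValuationSubring Qbar, A.LiesOverPrime ℓ ∧
        A.inertiaSubgroupIn ℚ ≤ H) → H = ⊤)
    (hunr : ∀ ℓ : ℕ, ℓ.Prime → ℓ ≠ 2 → ℓ ≠ p → ∀ A : ValuationSubring Qbar, A.LiesOverPrime ℓ →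
      ∀ σ ∈ A.inertiaSubgroupIn ℚ, ∀ x : Submodule.torsionBy ℤ (W'⁄Qbar).Point p, σ • x = x)
    (h2u : ∀ A : ValuationSubring Qbar, A.LiesOverPrime 2 → ∀ σ ∈ A.inertiaSubgroupIn ℚ,
      ∀ x : (W'⁄Qbar).Point, p • x = 0 → σ • (σ • x - x) = σ • x - x)
    (h2r : ∀ x : (W'⁄Qbar).Point, x ≠ 0 → p • x = 0 → (∀ σ : GQ, σ • x = x) → False)
    (hpp : ∀ A : ValuationSubring Qbar, A.LiesOverPrime p → ∀ R : (W'⁄Qbar).Point, R ≠ 0 →
      p • R = 0 → (∀ σ : GQ, ∃ j : ℕ, σ • R = j • R) →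
      ∃ Vp : AddSubgroup (W'⁄Qbar).Point,
        (∀ σ ∈ A.inertiaSubgroupIn ℚ, ∀ x : (W'⁄Qbar).Point, p • x = 0 → σ • x - x ∈ Vp) ∧
        ∃ x : (W'⁄Qbar).Point, p • x = 0 ∧ x ∉ Vp) :
    ∀ (σ : GQ) (x : Submodule.torsionBy ℤ (W'⁄Qbar).Point p), σ • x - x ∈ N := by
  have : Fact p.Prime := ⟨hp⟩
  have hfin : Finite (Submodule.torsionBy ℤ (W'⁄Qbar).Point p) :=
    Nat.finite_of_card_ne_zero (by rw [hcard]; exact pow_ne_zero _ hp.ne_zero)
  have hrk := finrank_eq_two_of_card hcard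
  obtain ⟨x₀, hx₀, hne, hgen⟩ := exists_generator hrk N h0 h1
  -- inertia at primes different from `p`
  have hother : ∀ ℓ : ℕ, ℓ.Prime → ℓ ≠ p → ∀ A : ValuationSubring Qbar, A.LiesOverPrime ℓ →
      ∀ σ ∈ A.inertiaSubgroupIn ℚ, (∀ x ∈ N, σ • x = x) ∧ (∀ x, σ • x - x ∈ N) := by
    intro ℓ hℓ hℓp A hA σ hσ
    by_cases hℓ2 : ℓ = 2
    · subst hℓ2
      refine unipotent_trivial hrk N h0 h1 (sLin W' p σ) (fun x hx => hN σ x hx) (fun x => ?_)
      apply Subtype.ext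
      exact h2u A hA σ hσ x.1 ((mem_tors_iff W' p).mp x.2)
    · have := hunr ℓ hℓ hℓ2 hℓp A hA σ hσ
      exact ⟨fun x _ => this x, fun x => by rw [this x, sub_self]; exact N.zero_mem⟩
  -- the prime `p`
  obtain ⟨A, hA⟩ := Fermat.Agent.Lib.Frobenius.exists_liesOverPrime hp
  obtain ⟨Vp, hVp, y, hy, hyV⟩ := hpp A hA x₀.1 (fun h => hne (Subtype.ext h))
    ((mem_tors_iff W' p).mp x₀.2) (fun σ => by
      obtain ⟨k, hk⟩ := hgen _ (hN σ x₀ hx₀)
      exact ⟨k.val, by rw [← zmod_smul_coe, ← hk]; rfl⟩)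
  set W : Submodule (ZMod p) (Submodule.torsionBy ℤ (W'⁄Qbar).Point p) :=
    AddSubgroup.toZModSubmodule p (Vp.comap
      (Submodule.torsionBy ℤ (W'⁄Qbar).Point p).subtype.toAddMonoidHom) with hW
  have hWmem : ∀ x, x ∈ W ↔ x.1 ∈ Vp := fun x => Iff.rfl
  have hWtop : W ≠ ⊤ := by
    intro h
    have : (⟨y, (mem_tors_iff W' p).mpr hy⟩ : Submodule.torsionBy ℤ (W'⁄Qbar).Point p) ∈ W :=
      h ▸ Submodule.mem_top
    exact hyV ((hWmem _).mp this)
  have hIW : ∀ σ ∈ A.inertiaSubgroupIn ℚ, ∀ x, σ • x - x ∈ W := fun σ hσ x =>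
    (hWmem _).mpr (hVp σ hσ x.1 ((mem_tors_iff W' p).mp x.2))
  have hex : ∀ ℓ : ℕ, ℓ.Prime → ∃ B : ValuationSubring Qbar, B.LiesOverPrime ℓ :=
    fun ℓ hℓ => Fermat.Agent.Lib.Frobenius.exists_liesOverPrime hℓ
  rcases inf_eq_bot_or_eq hrk N h0 h1 W hWtop with hcase | hcase
  · -- inertia at `p` acts trivially on `N`: impossible
    exfalso
    have htop : H1 N = ⊤ := by
      refine hM _ (H1_normal N hN) (isOpen_of_fix_le _ fun σ hσ x _ => hσ x) fun ℓ hℓ => ?_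
      by_cases hℓp : ℓ = p
      · subst hℓp
        refine ⟨A, hA, fun σ hσ x hx => ?_⟩
        have : σ • x - x ∈ N ⊓ W := ⟨N.sub_mem (hN σ x hx) hx, hIW σ hσ x⟩
        rw [hcase, Submodule.mem_bot] at this
        exact sub_eq_zero.mp this
      · obtain ⟨B, hB⟩ := hex ℓ hℓ
        exact ⟨B, hB, fun σ hσ => (hother ℓ hℓ hℓp B hB σ hσ).1⟩
    refine h2r x₀.1 (fun h => hne (Subtype.ext h)) ((mem_tors_iff W' p).mp x₀.2) fun σ => ?_
    have : σ ∈ H1 N := htop ▸ Subgroup.mem_top σ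
    exact congrArg Subtype.val (this x₀ hx₀)
  · have htop : H2 N hN = ⊤ := by
      refine hM _ (H2_normal N hN) (isOpen_of_fix_le _ fun σ hσ x => by
        rw [hσ x, sub_self]; exact N.zero_mem) fun ℓ hℓ => ?_
      by_cases hℓp : ℓ = p
      · subst hℓp
        exact ⟨A, hA, fun σ hσ x => hcase ▸ hIW σ hσ x⟩
      · obtain ⟨B, hB⟩ := hex ℓ hℓ
        exact ⟨B, hB, fun σ hσ => (hother ℓ hℓ hℓp B hB σ hσ).2⟩
    intro σ x
    have : σ ∈ H2 N hN := htop ▸ Subgroup.mem_top σ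
    exact this x

end Fermat.Agent.S13
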