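import Mathlib

/-!
# Bookkeeping of degrees and top coefficients of polynomials
-/

set_option autoImplicit false

namespace Fermat.Agent.S13

open Polynomial

variable {K : Type*} [CommRing K]

/-- `p` has degree at most `d` and its coefficient of index `d` is `a`. -/
def TopCoeff (p : K[X]) (d : ℕ) (a : K) : Prop := p.natDegree ≤ d ∧ p.coeff d = a

namespace TopCoeff

variable {p q : K[X]} {d e : ℕ} {a b : K}

lemma congr (h : TopCoeff p d a) (hd : d = e) (ha : a = b) : TopCoeff p e b := by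
  subst hd; subst ha; exact h

lemma mul (hp : TopCoeff p d a) (hq : TopCoeff q e b) : TopCoeff (p * q) (d + e) (a * b) :=
  ⟨natDegree_mul_le_of_le hp.1 hq.1, by
    rw [coeff_mul_add_eq_of_natDegree_le hp.1 hq.1, hp.2, hq.2]⟩

lemma add (hp : TopCoeff p d a) (hq : TopCoeff q d b) : TopCoeff (p + q) d (a + b) :=
  ⟨natDegree_add_le_of_degree_le hp.1 hq.1, by rw [coeff_add, hp.2, hq.2]⟩

lemma sub (hp : TopCoeff p d a) (hq : TopCoeff q d b) : TopCoeff (p - q) d (a - b) :=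
  ⟨(natDegree_sub_le_of_le hp.1 hq.1).trans (by simp), by rw [coeff_sub, hp.2, hq.2]⟩

lemma pow (hp : TopCoeff p d a) (k : ℕ) : TopCoeff (p ^ k) (k * d) (a ^ k) :=
  ⟨natDegree_pow_le_of_le k hp.1, by rw [coeff_pow_of_natDegree_le hp.1, hp.2]⟩

lemma C_mul (hp : TopCoeff p d a) (k : K) : TopCoeff (C k * p) d (k * a) :=
  ⟨(natDegree_C_mul_le k p).trans hp.1, by rw [coeff_C_mul, hp.2]⟩

lemma weaken (hp : TopCoeff p d a) (h : d < e) : TopCoeff p e 0 :=
  ⟨hp.1.trans h.le, coeff_eq_zero_of_natDegree_lt (lt_of_le_of_lt hp.1 h)⟩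

lemma X : TopCoeff (Polynomial.X : K[X]) 1 1 := ⟨natDegree_X_le, coeff_X_one⟩

lemma one : TopCoeff (1 : K[X]) 0 1 := ⟨by simp, by simp⟩

lemma zero (d : ℕ) : TopCoeff (0 : K[X]) d 0 := ⟨by simp, by simp⟩

lemma derivative (hp : TopCoeff p (d + 1) a) :
    TopCoeff (Polynomial.derivative p) d (a * ((d : K) + 1)) :=
  ⟨(natDegree_derivative_le p).trans (by have := hp.1; omega), by
    rw [coeff_derivative, hp.2]⟩

lemma natDegree_eq (hp : TopCoeff p d a) (ha : a ≠ 0) : p.natDegree = d :=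
  le_antisymm hp.1 (le_natDegree_of_ne_zero (by rw [hp.2]; exact ha))

lemma leadingCoeff_eq (hp : TopCoeff p d a) (ha : a ≠ 0) : p.leadingCoeff = a := by
  rw [leadingCoeff, hp.natDegree_eq ha, hp.2]

lemma ne_zero (hp : TopCoeff p d a) (ha : a ≠ 0) : p ≠ 0 := by
  rintro rfl
  exact ha (by rw [← hp.2, coeff_zero])

end TopCoeff

end Fermat.Agent.S13
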