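import Fermat.Agent.S05.Coord
import Fermat.Agent.S13.TopCoeff

/-!
# x-only ladder polynomials for multiplication by `n`
-/

set_option autoImplicit false

namespace Fermat.Agent.S13

open Polynomial Fermat.Agent.S05

variable {G : Type*} [AddCommGroup G] {K : Type*} [Field K] {α β : K}

/-- polynomials with coefficients in a subring -/
noncomputable def intPoly (R : Subring K) : Subring K[X] := (Polynomial.mapRingHom R.subtype).range

lemma C_mem_intPoly {R : Subring K} {a : K} (ha : a ∈ R) : C a ∈ intPoly R :=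
  ⟨C ⟨a, ha⟩, by simp⟩

lemma X_mem_intPoly (R : Subring K) : (X : K[X]) ∈ intPoly R := ⟨X, by simp⟩

lemma coeff_mem_of_mem_intPoly {R : Subring K} {p : K[X]} (hp : p ∈ intPoly R) (i : ℕ) :
    p.coeff i ∈ R := by
  obtain ⟨q, rfl⟩ := hp
  simp

/-- `X / Z` computes the `ξ`-coordinate of `n • Q` from that of `Q`. -/
structure IsLad (c : LegCoord G K α β) (n : ℕ) (X Z : K[X]) : Prop where
  zero : ∀ Q, Q ≠ 0 → n • Q = 0 → Z.eval (c.ξ Q) = 0 ∧ X.eval (c.ξ Q) ≠ 0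
  ne : ∀ Q, Q ≠ 0 → n • Q ≠ 0 →
    Z.eval (c.ξ Q) ≠ 0 ∧ c.ξ (n • Q) * Z.eval (c.ξ Q) = X.eval (c.ξ Q)
  topX : TopCoeff X (n ^ 2) 1
  topZ : TopCoeff Z (n ^ 2 - 1) ((n : K) ^ 2)
  int : ∀ R : Subring K, α ∈ R → β ∈ R → X ∈ intPoly R ∧ Z ∈ intPoly R

/-- numerator of the doubling map -/
noncomputable def dblX (α β : K) (X Z : K[X]) : K[X] := (X ^ 2 - C (α * β) * Z ^ 2) ^ 2

/-- denominator of the doubling map -/
noncomputable def dblZ (α β : K) (X Z : K[X]) : K[X] :=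
  C 4 * (X * Z * (X - C α * Z) * (X - C β * Z))

/-- the "division polynomial" -/
noncomputable def oddD (X₁ Z₁ X₂ Z₂ : K[X]) : K[X] := X₁ * Z₂ - X₂ * Z₁

/-- numerator of the differential addition -/
noncomputable def oddX (α β : K) (X₁ Z₁ X₂ Z₂ : K[X]) : K[X] :=
  C 2 * ((X₁ * Z₂ + X₂ * Z₁) * (X₁ * X₂ + C (α * β) * (Z₁ * Z₂))
    - C (2 * (α + β)) * (X₁ * X₂ * (Z₁ * Z₂))) - X * oddD X₁ Z₁ X₂ Z₂ ^ 2

lemma isLad_zero (c : LegCoord G K α β) : IsLad c 0 1 0 where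
  zero Q _ _ := by simp
  ne Q _ h := absurd (zero_nsmul Q) h
  topX := by simpa using TopCoeff.one
  topZ := by simpa using TopCoeff.zero 0
  int R _ _ := ⟨one_mem _, zero_mem _⟩

lemma isLad_one (c : LegCoord G K α β) : IsLad c 1 X 1 where
  zero Q hQ h := absurd (by simpa using h) hQ
  ne Q _ _ := by simp
  topX := by simpa using TopCoeff.X
  topZ := by simpa using TopCoeff.one
  int R _ _ := ⟨X_mem_intPoly R, one_mem _⟩

section link

variable (c : LegCoord G K α β)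

include c in
lemma η_eq_zero_of_add_self_eq_zero (h2 : (2 : K) ≠ 0) {R : G} (h : R + R = 0) : c.η R = 0 := by
  have h1 : R = -R := eq_neg_of_add_eq_zero_left h
  have h3 := c.η_neg R
  rw [← h1] at h3
  have : 2 * c.η R = 0 := by linear_combination h3
  exact (mul_eq_zero.mp this).resolve_left h2

lemma IsLad.dbl (h2 : (2 : K) ≠ 0) (hα : α ≠ 0) (hβ : β ≠ 0) (hαβ : α ≠ β) {n : ℕ} (hn : 1 ≤ n)
    {X Z : K[X]} (h : IsLad c n X Z) : IsLad c (2 * n) (dblX α β X Z) (dblZ α β X Z) where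
  zero Q hQ h0 := by
    have e : (2 * n) • Q = n • Q + n • Q := by rw [two_mul, add_nsmul]
    rw [e] at h0
    simp only [dblX, dblZ, eval_mul, eval_pow, eval_sub, eval_C]
    by_cases hR : n • Q = 0
    · obtain ⟨hz, hx⟩ := h.zero Q hQ hR
      rw [hz]
      refine ⟨by ring, ?_⟩
      have : (eval (c.ξ Q) X ^ 2 - α * β * 0 ^ 2) ^ 2 = eval (c.ξ Q) X ^ 4 := by ring
      rw [this]
      exact pow_ne_zero _ hx
    · obtain ⟨hz, hx⟩ := h.ne Q hQ hR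
      have hη := η_eq_zero_of_add_self_eq_zero c h2 h0
      have E := c.eqn _ hR
      rw [hη] at E
      rw [← hx]
      generalize c.ξ (n • Q) = r at *
      generalize eval (c.ξ Q) Z = z at *
      constructor
      · linear_combination (-z ^ 4) * E
      · have e1 : (((r * z) ^ 2 - α * β * z ^ 2) ^ 2) = z ^ 4 * (r ^ 2 - α * β) ^ 2 := by ring
        rw [e1]
        refine mul_ne_zero (pow_ne_zero _ hz) (pow_ne_zero _ ?_)
        intro h3
        have h4 : (4 : K) ≠ 0 := by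
          have : (4 : K) = 2 * 2 := by norm_num
          rw [this]; exact mul_ne_zero h2 h2
        have E' : r * (r - α) * (r - β) = 0 := by
          apply mul_left_cancel₀ h4
          linear_combination -E
        rcases mul_eq_zero.mp E' with h5 | h5
        · rcases mul_eq_zero.mp h5 with h6 | h6
          · rw [h6] at h3
            apply mul_ne_zero hα hβ
            linear_combination -h3
          · have : r = α := sub_eq_zero.mp h6
            rw [this] at h3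
            apply hαβ
            apply mul_left_cancel₀ hα
            linear_combination h3
        · have : r = β := sub_eq_zero.mp h5
          rw [this] at h3
          apply hαβ
          apply mul_left_cancel₀ hβ
          linear_combination -h3
  ne Q hQ h0 := by
    have e : (2 * n) • Q = n • Q + n • Q := by rw [two_mul, add_nsmul]
    rw [e] at h0 ⊢
    have hR : n • Q ≠ 0 := by
      intro h
      rw [h, add_zero] at h0
      exact h0 rfl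
    obtain ⟨hz, hx⟩ := h.ne Q hQ hR
    have hη := c.η_ne_zero_of_add_self_ne_zero hR h0
    have E := c.eqn _ hR
    have F := c.dbl _ hR hη
    simp only [dblX, dblZ, eval_mul, eval_pow, eval_sub, eval_C]
    rw [← hx]
    generalize c.ξ (n • Q + n • Q) = s at *
    generalize c.ξ (n • Q) = r at *
    generalize c.η (n • Q) = y at *
    generalize eval (c.ξ Q) Z = z at *
    have e1 : 4 * (r * z * z * (r * z - α * z) * (r * z - β * z)) = z ^ 4 * y ^ 2 := by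
      rw [E]; ring
    rw [e1]
    refine ⟨mul_ne_zero (pow_ne_zero _ hz) (pow_ne_zero _ hη), ?_⟩
    linear_combination z ^ 4 * F
  topX := by
    have hN : 1 ≤ n ^ 2 := Nat.one_le_pow _ _ hn
    have hZ2 : TopCoeff (Z ^ 2) (2 * n ^ 2) 0 := (h.topZ.pow 2).weaken (by omega)
    have h1 := ((h.topX.pow 2).sub (hZ2.C_mul (α * β))).pow 2
    exact h1.congr (by ring) (by ring)
  topZ := by
    have hN : 1 ≤ n ^ 2 := Nat.one_le_pow _ _ hn
    have hZ : TopCoeff Z (n ^ 2) 0 := h.topZ.weaken (by omega)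
    have h1 := ((((h.topX.mul h.topZ).mul (h.topX.sub (hZ.C_mul α))).mul
      (h.topX.sub (hZ.C_mul β))).C_mul 4)
    refine h1.congr ?_ (by push_cast; ring)
    have : (2 * n) ^ 2 = 4 * n ^ 2 := by ring
    omega
  int R hα hβ := by
    obtain ⟨hX, hZ⟩ := h.int R hα hβ
    have h4 : C (4 : K) ∈ intPoly R := C_mem_intPoly (by exact_mod_cast natCast_mem R 4)
    constructor
    · exact pow_mem (sub_mem (pow_mem hX _) (mul_mem (C_mem_intPoly (mul_mem hα hβ))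
        (pow_mem hZ _))) _
    · exact mul_mem h4 (mul_mem (mul_mem (mul_mem hX hZ) (sub_mem hX (mul_mem (C_mem_intPoly hα) hZ)))
        (sub_mem hX (mul_mem (C_mem_intPoly hβ) hZ)))

/-- the evaluation of the odd step -/
lemma odd_eval (h2 : (2 : K) ≠ 0) {n : ℕ} {X₁ Z₁ X₂ Z₂ : K[X]} (h₁ : IsLad c n X₁ Z₁)
    (h₂ : IsLad c (n + 1) X₂ Z₂) (Q : G) (hQ : Q ≠ 0) :
    ((2 * n + 1) • Q = 0 → (oddD X₁ Z₁ X₂ Z₂).eval (c.ξ Q) = 0 ∧
      (oddX α β X₁ Z₁ X₂ Z₂).eval (c.ξ Q) ≠ 0) ∧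
    ((2 * n + 1) • Q ≠ 0 → (oddD X₁ Z₁ X₂ Z₂).eval (c.ξ Q) ≠ 0 ∧
      c.ξ ((2 * n + 1) • Q) * (oddD X₁ Z₁ X₂ Z₂).eval (c.ξ Q) ^ 2
        = (oddX α β X₁ Z₁ X₂ Z₂).eval (c.ξ Q)) := by
  have eS : (n + 1) • Q = n • Q + Q := by rw [add_nsmul, one_nsmul]
  have eT : (2 * n + 1) • Q = (n + 1) • Q + n • Q := by
    rw [← add_nsmul]; congr 1; ring
  have eQ : (n + 1) • Q - n • Q = Q := by rw [eS]; abel
  simp only [oddX, oddD, eval_mul, eval_pow, eval_sub, eval_add, eval_C, eval_X]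
  by_cases hR : n • Q = 0
  · -- case A
    obtain ⟨hz₁, hx₁⟩ := h₁.zero Q hQ hR
    have hS : (n + 1) • Q = Q := by rw [eS, hR, zero_add]
    obtain ⟨hz₂, hx₂⟩ := h₂.ne Q hQ (by rw [hS]; exact hQ)
    have hT : (2 * n + 1) • Q = Q := by rw [eT, hS, hR, add_zero]
    rw [hS] at hx₂
    rw [hT, hz₁, ← hx₂]
    refine ⟨fun h => absurd h hQ, fun _ => ⟨?_, by ring⟩⟩
    have : eval (c.ξ Q) X₁ * eval (c.ξ Q) Z₂ - c.ξ Q * eval (c.ξ Q) Z₂ * 0
        = eval (c.ξ Q) X₁ * eval (c.ξ Q) Z₂ := by ring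
    rw [this]
    exact mul_ne_zero hx₁ hz₂
  by_cases hS : (n + 1) • Q = 0
  · -- case B
    obtain ⟨hz₂, hx₂⟩ := h₂.zero Q hQ hS
    obtain ⟨hz₁, hx₁⟩ := h₁.ne Q hQ hR
    have hRQ : n • Q = -Q := by
      rw [eS] at hS
      exact eq_neg_of_add_eq_zero_left hS
    have hT : (2 * n + 1) • Q = -Q := by rw [eT, hS, hRQ, zero_add]
    rw [hRQ, c.ξ_neg] at hx₁
    rw [hT, c.ξ_neg, hz₂, ← hx₁]
    refine ⟨fun h => absurd (neg_eq_zero.mp h) hQ, fun _ => ⟨?_, by ring⟩⟩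
    have : c.ξ Q * eval (c.ξ Q) Z₁ * 0 - eval (c.ξ Q) X₂ * eval (c.ξ Q) Z₁
        = -(eval (c.ξ Q) X₂ * eval (c.ξ Q) Z₁) := by ring
    rw [this]
    exact neg_ne_zero.mpr (mul_ne_zero hx₂ hz₁)
  -- case C
  obtain ⟨hz₁, hx₁⟩ := h₁.ne Q hQ hR
  obtain ⟨hz₂, hx₂⟩ := h₂.ne Q hQ hS
  rw [← hx₁, ← hx₂, eT]
  by_cases hξ : c.ξ ((n + 1) • Q) = c.ξ (n • Q)
  · have hneg : (n + 1) • Q = -(n • Q) := by
      rcases c.eq_or_eq_neg_of_ξ_eq hS hR hξ with h | h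
      · exfalso
        apply hQ
        rw [← eQ, h, sub_self]
      · exact h
    have hT : (n + 1) • Q + n • Q = 0 := by rw [hneg, neg_add_cancel]
    have hη : c.η (n • Q) ≠ 0 := by
      intro h0
      have := c.add_self_eq_zero_of_η_eq_zero hR h0
      apply hQ
      rw [← eQ, hneg, ← neg_add', this, neg_zero]
    have E := c.eqn _ hR
    rw [hT, hξ]
    refine ⟨fun _ => ⟨by ring, ?_⟩, fun h => absurd rfl h⟩
    generalize c.ξ (n • Q) = r at *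
    generalize c.η (n • Q) = y at *
    generalize eval (c.ξ Q) Z₁ = z₁ at *
    generalize eval (c.ξ Q) Z₂ = z₂ at *
    have e1 : 2 * ((r * z₁ * z₂ + r * z₂ * z₁) * (r * z₁ * (r * z₂) + α * β * (z₁ * z₂))
        - 2 * (α + β) * (r * z₁ * (r * z₂) * (z₁ * z₂))) - c.ξ Q * (r * z₁ * z₂ - r * z₂ * z₁) ^ 2
        = z₁ ^ 2 * z₂ ^ 2 * y ^ 2 := by
      rw [E]; ring
    rw [e1]
    exact mul_ne_zero (mul_ne_zero (pow_ne_zero _ hz₁) (pow_ne_zero _ hz₂)) (pow_ne_zero _ hη)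
  · have hT := c.add_ne_zero_of_ξ_ne hξ
    have F := c.add_formula h2 hS hR hξ
    rw [eQ] at F
    refine ⟨fun h => absurd h hT, fun _ => ⟨?_, ?_⟩⟩
    · have : c.ξ (n • Q) * eval (c.ξ Q) Z₁ * eval (c.ξ Q) Z₂
          - c.ξ ((n + 1) • Q) * eval (c.ξ Q) Z₂ * eval (c.ξ Q) Z₁
          = -(eval (c.ξ Q) Z₁ * eval (c.ξ Q) Z₂ * (c.ξ ((n + 1) • Q) - c.ξ (n • Q))) := by ring
      rw [this]
      exact neg_ne_zero.mpr (mul_ne_zero (mul_ne_zero hz₁ hz₂) (sub_ne_zero.mpr hξ))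
    · linear_combination (eval (c.ξ Q) Z₁ ^ 2 * eval (c.ξ Q) Z₂ ^ 2) * F

lemma topCoeff_oddD {n : ℕ} (hn : 1 ≤ n) {X₁ Z₁ X₂ Z₂ : K[X]}
    (h₁ : IsLad c n X₁ Z₁) (h₂ : IsLad c (n + 1) X₂ Z₂) :
    TopCoeff (oddD X₁ Z₁ X₂ Z₂) (2 * n * (n + 1)) ((2 * n + 1 : ℕ) : K) := by
  have hN : 1 ≤ n ^ 2 := Nat.one_le_pow _ _ hn
  have hN' : (n + 1) ^ 2 = n ^ 2 + 2 * n + 1 := by ring
  have hM : 2 * n * (n + 1) = 2 * n ^ 2 + 2 * n := by ring
  have a1 : TopCoeff (X₁ * Z₂) (2 * n * (n + 1)) (((n + 1 : ℕ) : K) ^ 2) :=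
    (h₁.topX.mul h₂.topZ).congr (by omega) (by ring)
  have a2 : TopCoeff (X₂ * Z₁) (2 * n * (n + 1)) ((n : K) ^ 2) :=
    (h₂.topX.mul h₁.topZ).congr (by omega) (by ring)
  exact (a1.sub a2).congr rfl (by push_cast; ring)

lemma IsLad.odd (h2 : (2 : K) ≠ 0) {n : ℕ} (hn : 1 ≤ n) {X₁ Z₁ X₂ Z₂ : K[X]}
    (h₁ : IsLad c n X₁ Z₁) (h₂ : IsLad c (n + 1) X₂ Z₂) :
    IsLad c (2 * n + 1) (oddX α β X₁ Z₁ X₂ Z₂) (oddD X₁ Z₁ X₂ Z₂ ^ 2) where
  zero Q hQ h0 := by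
    obtain ⟨hd, hx⟩ := (odd_eval c h2 h₁ h₂ Q hQ).1 h0
    exact ⟨by rw [eval_pow, hd]; ring, hx⟩
  ne Q hQ h0 := by
    obtain ⟨hd, hx⟩ := (odd_eval c h2 h₁ h₂ Q hQ).2 h0
    exact ⟨by rw [eval_pow]; exact pow_ne_zero _ hd, by rw [eval_pow]; exact hx⟩
  topX := by
    have hN : 1 ≤ n ^ 2 := Nat.one_le_pow _ _ hn
    have hN' : (n + 1) ^ 2 = n ^ 2 + 2 * n + 1 := by ring
    have hM : 2 * n * (n + 1) = 2 * n ^ 2 + 2 * n := by ring
    have hT : (2 * n + 1) ^ 2 = 4 * n ^ 2 + 4 * n + 1 := by ring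
    have hD := topCoeff_oddD c hn h₁ h₂
    have a1 : TopCoeff (X₁ * Z₂) (2 * n * (n + 1)) (((n + 1 : ℕ) : K) ^ 2) :=
      (h₁.topX.mul h₂.topZ).congr (by omega) (by ring)
    have a2 : TopCoeff (X₂ * Z₁) (2 * n * (n + 1)) ((n : K) ^ 2) :=
      (h₂.topX.mul h₁.topZ).congr (by omega) (by ring)
    have a3 : TopCoeff (X₁ * X₂) (2 * n * (n + 1) + 1) 1 :=
      (h₁.topX.mul h₂.topX).congr (by omega) (by ring)
    have a4 : TopCoeff (Z₁ * Z₂) (2 * n * (n + 1) + 1) 0 :=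
      (h₁.topZ.mul h₂.topZ).weaken (by omega)
    have a5 : TopCoeff (X₁ * X₂ * (Z₁ * Z₂)) ((2 * n + 1) ^ 2) 0 :=
      (a3.mul (h₁.topZ.mul h₂.topZ)).weaken (by omega)
    have a6 := ((a1.add a2).mul (a3.add (a4.C_mul (α * β)))).congr
      (e := (2 * n + 1) ^ 2) (by omega) rfl
    have a7 := (TopCoeff.X.mul (hD.pow 2)).congr (e := (2 * n + 1) ^ 2) (by omega) rfl
    exact (((a6.sub (a5.C_mul (2 * (α + β)))).C_mul 2).sub a7).congr rfl (by push_cast; ring)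
  topZ := by
    have hT : (2 * n + 1) ^ 2 = 4 * n ^ 2 + 4 * n + 1 := by ring
    have hM : 2 * n * (n + 1) = 2 * n ^ 2 + 2 * n := by ring
    exact ((topCoeff_oddD c hn h₁ h₂).pow 2).congr (by omega) rfl
  int R hα hβ := by
    obtain ⟨hX₁, hZ₁⟩ := h₁.int R hα hβ
    obtain ⟨hX₂, hZ₂⟩ := h₂.int R hα hβ
    have h2 : (2 : K) ∈ R := by exact_mod_cast natCast_mem R 2
    have hD : oddD X₁ Z₁ X₂ Z₂ ∈ intPoly R := sub_mem (mul_mem hX₁ hZ₂) (mul_mem hX₂ hZ₁)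
    refine ⟨?_, pow_mem hD _⟩
    exact sub_mem (mul_mem (C_mem_intPoly h2) (sub_mem (mul_mem (add_mem (mul_mem hX₁ hZ₂)
      (mul_mem hX₂ hZ₁)) (add_mem (mul_mem hX₁ hX₂) (mul_mem (C_mem_intPoly (mul_mem hα hβ))
      (mul_mem hZ₁ hZ₂)))) (mul_mem (C_mem_intPoly (mul_mem h2 (add_mem hα hβ)))
      (mul_mem (mul_mem hX₁ hX₂) (mul_mem hZ₁ hZ₂))))) (mul_mem (X_mem_intPoly R) (pow_mem hD _))

/-- existence of ladder polynomials -/
theorem exists_isLad (h2 : (2 : K) ≠ 0) (hα : α ≠ 0) (hβ : β ≠ 0) (hαβ : α ≠ β) (n : ℕ) :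
    ∃ X Z : K[X], IsLad c n X Z := by
  induction n using Nat.strong_induction_on with
  | _ n ih =>
    rcases Nat.lt_or_ge n 2 with hn | hn
    · interval_cases n
      · exact ⟨_, _, isLad_zero c⟩
      · exact ⟨_, _, isLad_one c⟩
    rcases Nat.even_or_odd' n with ⟨m, rfl | rfl⟩
    · obtain ⟨X, Z, h⟩ := ih m (by omega)
      exact ⟨_, _, h.dbl c h2 hα hβ hαβ (by omega)⟩
    · obtain ⟨X₁, Z₁, h₁⟩ := ih m (by omega)
      obtain ⟨X₂, Z₂, h₂⟩ := ih (m + 1) (by omega)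
      exact ⟨_, _, h₁.odd c h2 (by omega) h₂⟩

end link

end Fermat.Agent.S13
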