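import Mathlib

/-!
# Linear algebra on a two-dimensional space over `ZMod p`
-/

set_option autoImplicit false

namespace Fermat.Agent.S13

open Module

variable {p : ℕ} [Fact p.Prime] {V : Type*} [AddCommGroup V] [Module (ZMod p) V]

lemma finrank_eq_two_of_card (h : Nat.card V = p ^ 2) : finrank (ZMod p) V = 2 := by
  have hp : p.Prime := Fact.out
  have : Finite V := Nat.finite_of_card_ne_zero (by rw [h]; exact pow_ne_zero _ hp.ne_zero)
  have h1 := Module.natCard_eq_pow_finrank (K := ZMod p) (V := V)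
  rw [h, Nat.card_zmod] at h1
  exact (Nat.pow_right_injective hp.two_le h1).symm

section

variable (h2 : finrank (ZMod p) V = 2) (N : Submodule (ZMod p) V) (h0 : N ≠ ⊥) (h1 : N ≠ ⊤)

include h2 in
lemma finiteDimensional_of_finrank : FiniteDimensional (ZMod p) V :=
  Module.finite_of_finrank_pos (by omega)

include h2 h0 h1 in
lemma finrank_line : finrank (ZMod p) N = 1 := by
  have := finiteDimensional_of_finrank h2
  have a1 : finrank (ZMod p) N < 2 := h2 ▸ Submodule.finrank_lt h1
  have a2 : 0 < finrank (ZMod p) N := by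
    rw [Nat.pos_iff_ne_zero]
    intro h
    exact h0 (Submodule.finrank_eq_zero.mp h)
  omega

include h2 h0 h1 in
/-- a proper subspace either meets the line trivially or is equal to it -/
lemma inf_eq_bot_or_eq (W : Submodule (ZMod p) V) (hW : W ≠ ⊤) : N ⊓ W = ⊥ ∨ W = N := by
  have := finiteDimensional_of_finrank h2
  have hN := finrank_line h2 N h0 h1
  by_cases h : N ⊓ W = ⊥
  · exact Or.inl h
  right
  have a1 : 0 < finrank (ZMod p) (N ⊓ W : Submodule (ZMod p) V) := by
    rw [Nat.pos_iff_ne_zero]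
    intro h'
    exact h (Submodule.finrank_eq_zero.mp h')
  have a2 : (N ⊓ W : Submodule (ZMod p) V) = N :=
    Submodule.eq_of_le_of_finrank_le inf_le_left (by omega)
  have a3 : N ≤ W := a2 ▸ inf_le_right
  have a4 : finrank (ZMod p) W < 2 := h2 ▸ Submodule.finrank_lt hW
  exact (Submodule.eq_of_le_of_finrank_le a3 (by omega)).symm

include h2 h0 h1 in
lemma exists_generator : ∃ x₀ ∈ N, x₀ ≠ 0 ∧ ∀ x ∈ N, ∃ k : ZMod p, x = k • x₀ := by
  have hN := finrank_line h2 N h0 h1
  obtain ⟨x₀, hx₀, hne⟩ := (Submodule.ne_bot_iff N).mp h0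
  refine ⟨x₀, hx₀, hne, fun x hx => ?_⟩
  have h3 := (finrank_eq_one_iff_of_nonzero' (⟨x₀, hx₀⟩ : N)
    (by simpa [Subtype.ext_iff] using hne)).mp hN ⟨x, hx⟩
  obtain ⟨k, hk⟩ := h3
  exact ⟨k, by simpa using (congrArg Subtype.val hk).symm⟩

include h2 h0 in
lemma exists_decomp {y : V} (hy : y ∉ N) (x : V) : ∃ b : ZMod p, x - b • y ∈ N := by
  have := finiteDimensional_of_finrank h2
  have hlt : N < N ⊔ Submodule.span (ZMod p) {y} := by
    refine lt_of_le_of_ne le_sup_left ?_
    intro h
    apply hy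
    rw [h]
    exact Submodule.mem_sup_right (Submodule.mem_span_singleton_self y)
  have a2 : 0 < finrank (ZMod p) N := by
    rw [Nat.pos_iff_ne_zero]
    intro h
    exact h0 (Submodule.finrank_eq_zero.mp h)
  have a3 := Submodule.finrank_lt_finrank_of_lt hlt
  have htop : N ⊔ Submodule.span (ZMod p) {y} = ⊤ := by
    apply Submodule.eq_top_of_finrank_eq
    have := Submodule.finrank_le (N ⊔ Submodule.span (ZMod p) {y})
    omega
  have hx : x ∈ N ⊔ Submodule.span (ZMod p) {y} := htop ▸ Submodule.mem_top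
  obtain ⟨n, hn, z, hz, rfl⟩ := Submodule.mem_sup.mp hx
  obtain ⟨b, rfl⟩ := Submodule.mem_span_singleton.mp hz
  exact ⟨b, by simpa using hn⟩

include h2 h0 h1 in
/-- a unipotent endomorphism stabilising the line acts trivially on the line and the quotient -/
lemma unipotent_trivial (s : V →ₗ[ZMod p] V) (hs : ∀ x ∈ N, s x ∈ N)
    (hu : ∀ x, s (s x - x) = s x - x) : (∀ x ∈ N, s x = x) ∧ (∀ x, s x - x ∈ N) := by
  obtain ⟨x₀, hx₀, hne, hgen⟩ := exists_generator h2 N h0 h1
  have key1 : ∀ x ∈ N, s x = x := by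
    obtain ⟨k, hk⟩ := hgen _ (hs x₀ hx₀)
    have h3 := hu x₀
    rw [hk, map_sub, map_smul, hk] at h3
    have h4 : ((k - 1) * (k - 1)) • x₀ = 0 := by
      have : ((k - 1) * (k - 1)) • x₀ = (k • k • x₀ - k • x₀) - (k • x₀ - x₀) := by
        simp only [sub_smul, mul_smul, smul_sub, one_smul]
      rw [this, h3, sub_self]
    have h5 : k = 1 := by
      rcases smul_eq_zero.mp h4 with h | h
      · rcases mul_eq_zero.mp h with h | h <;> exact sub_eq_zero.mp h
      · exact absurd h hne
    intro x hx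
    obtain ⟨j, rfl⟩ := hgen x hx
    rw [map_smul, hk, h5, one_smul]
  refine ⟨key1, ?_⟩
  obtain ⟨y, hy⟩ : ∃ y, y ∉ N := by
    by_contra h
    push Not at h
    exact h1 (eq_top_iff.mpr fun x _ => h x)
  obtain ⟨k, hk⟩ := exists_decomp h2 N h0 hy (s y)
  -- `s y = k y + n`
  set n := s y - k • y with hn
  have hsy : s y = k • y + n := by rw [hn]; abel
  have h3 := hu y
  have h4 : ((k - 1) * (k - 1)) • y ∈ N := by
    have e : ((k - 1) * (k - 1)) • y = (s (s y - y) - (s y - y)) - (k - 1) • n - (s n - n) := by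
      rw [map_sub, hsy, map_add, map_smul, hsy]
      simp only [sub_smul, mul_smul, smul_sub, one_smul, smul_add]
      abel
    rw [e, h3, sub_self, key1 n hk, sub_self, sub_zero, zero_sub]
    exact N.neg_mem (N.smul_mem _ hk)
  have h5 : k = 1 := by
    by_contra hk1
    have hne' : (k - 1) * (k - 1) ≠ 0 := mul_ne_zero (sub_ne_zero.mpr hk1) (sub_ne_zero.mpr hk1)
    apply hy
    have := N.smul_mem ((k - 1) * (k - 1))⁻¹ h4
    rwa [smul_smul, inv_mul_cancel₀ hne', one_smul] at this
  have hy' : s y - y ∈ N := by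
    rw [hsy, h5, one_smul]
    simpa using hk
  intro x
  obtain ⟨b, hb⟩ := exists_decomp h2 N h0 hy x
  have e : s x - x = b • (s y - y) + (s (x - b • y) - (x - b • y)) := by
    rw [map_sub, map_smul, smul_sub]; abel
  rw [e, key1 _ hb, sub_self, add_zero]
  exact N.smul_mem _ hy'

end

end Fermat.Agent.S13
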