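import Mathlib
import Fermat.Prelude.Def_FLTPrelim_Ramification
import Fermat.Agent.S14.Lift

/-!
# S13, package M: an open normal subgroup of `Gal(Qbar/Q)` containing an inertia group above
every prime is everything (Minkowski).
-/

set_option autoImplicit false
set_option linter.style.haveILetI false

namespace Fermat.Agent.S13

open NumberField Fermat.Agent.Lib.Frobenius

local notation "Qbar" => AlgebraicClosure ℚ
local notation "GQ" => (AlgebraicClosure ℚ ≃ₐ[ℚ] AlgebraicClosure ℚ)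

namespace Minkowski

/-- The inclusion of the ring of integers of an intermediate number field in a valuation
subring of `Qbar`. -/
noncomputable def inclF (F : IntermediateField ℚ Qbar) (A : ValuationSubring Qbar) :
    𝓞 F →+* A where
  toFun b := ⟨((b : F) : Qbar), mem_of_isIntegral A
    ((Fermat.Agent.S14.Lift.isIntegral_coe_iff F (b : F)).2 b.2)⟩
  map_one' := rfl
  map_mul' _ _ := rfl
  map_zero' := rfl
  map_add' _ _ := rfl

/-- A nontrivial finite Galois extension of `ℚ` inside `Qbar` has, for some prime `ℓ`, nontrivial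
inertia at every valuation subring above `ℓ`. -/
lemma exists_inertia_ne_one (F : IntermediateField ℚ Qbar) [FiniteDimensional ℚ F] [IsGalois ℚ F]
    (hF : 1 < Module.finrank ℚ F) :
    ∃ ℓ : ℕ, ℓ.Prime ∧ ∀ A : ValuationSubring Qbar, A.LiesOverPrime ℓ →
      ∃ g : F ≃ₐ[ℚ] F, g ≠ 1 ∧ ∀ x : F, IsIntegral ℤ x → ((g x - x : F) : Qbar) ∈ A.nonunits := by
  classical
  haveI : NumberField F := { to_charZero := inferInstance, to_finiteDimensional := inferInstance }
  obtain ⟨ℓ, hℓ, hram⟩ := NumberField.exists_not_isUnramifiedAt_int_of_isGalois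
    (K := F) (𝒪 := 𝓞 F) hF
  refine ⟨ℓ, hℓ, fun A hA => ?_⟩
  let P : Ideal (𝓞 F) := (IsLocalRing.maximalIdeal A).comap (inclF F A)
  have hPmem : ∀ b : 𝓞 F, b ∈ P ↔ (((b : F) : Qbar)) ∈ A.nonunits := fun b => by
    rw [Ideal.mem_comap, ← ValuationSubring.coe_mem_nonunits_iff]
    rfl
  haveI hPprime : P.IsPrime := Ideal.comap_isPrime _ _
  have hℓP : ((ℓ : ℕ) : 𝓞 F) ∈ P := by
    rw [hPmem]
    have hA' : (ℓ : Qbar) ∈ A.nonunits := hA
    simpa using hA'
  have h1 := hram P hPprime hℓP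
  let p : Ideal ℤ := P.under ℤ
  haveI : P.LiesOver p := ⟨rfl⟩
  haveI : p.IsPrime := Ideal.IsPrime.under ℤ P
  rw [← Ideal.ramificationIdx_eq_one_iff,
    ← Ideal.ramificationIdxIn_eq_ramificationIdx p P (F ≃ₐ[ℚ] F),
    ← Ideal.card_inertia_eq_ramificationIdxIn (G := (F ≃ₐ[ℚ] F)) p P] at h1
  have h2 : ∃ g ∈ Ideal.inertia (F ≃ₐ[ℚ] F) P, g ≠ 1 := by
    by_contra hcon
    push Not at hcon
    apply h1
    have : Ideal.inertia (F ≃ₐ[ℚ] F) P = ⊥ := (Subgroup.eq_bot_iff_forall _).2 hcon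
    rw [this]
    simp
  obtain ⟨g, hg, hg1⟩ := h2
  refine ⟨g, hg1, fun x hx => ?_⟩
  let y : 𝓞 F := ⟨x, hx⟩
  have h3 := (AddSubgroup.mem_inertia.1 hg) y
  have h4 : (g • y - y) ∈ P := h3
  exact (hPmem _).1 h4

end Minkowski

open Minkowski

theorem eq_top_of_inertia_le (H : Subgroup GQ) [H.Normal] (hopen : IsOpen (H : Set GQ))
    (h : ∀ ℓ : ℕ, ℓ.Prime → ∃ A : ValuationSubring Qbar, A.LiesOverPrime ℓ ∧
      A.inertiaSubgroupIn ℚ ≤ H) : H = ⊤ := by
  classical
  let Hc : ClosedSubgroup GQ := ⟨H, Subgroup.isClosed_of_isOpen H hopen⟩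
  let F : IntermediateField ℚ Qbar := IntermediateField.fixedField H
  have hfix : F.fixingSubgroup = H := InfiniteGalois.fixingSubgroup_fixedField Hc
  haveI : FiniteDimensional ℚ F := by
    rw [← InfiniteGalois.isOpen_iff_finite, hfix]
    exact hopen
  haveI : IsGalois ℚ F := by
    have hn : F.fixingSubgroup.Normal := by rw [hfix]; infer_instance
    exact (InfiniteGalois.normal_iff_isGalois F).1 hn
  by_contra hne
  have hF : 1 < Module.finrank ℚ F := by
    by_contra hle
    have h1 : Module.finrank ℚ F = 1 := by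
      have : 0 < Module.finrank ℚ F := Module.finrank_pos
      omega
    have h2 : F = ⊥ := IntermediateField.finrank_eq_one_iff.1 h1
    apply hne
    rw [← hfix, h2]
    exact IntermediateField.fixingSubgroup_bot
  obtain ⟨ℓ, hℓ, hin⟩ := exists_inertia_ne_one F hF
  obtain ⟨A, hA, hAH⟩ := h ℓ hℓ
  obtain ⟨g, hg1, hg⟩ := hin A hA
  obtain ⟨σ, hσ, hσg⟩ := Fermat.Agent.S14.exists_lift_inertia F A hℓ hA g hg
  have hσH : σ ∈ F.fixingSubgroup := by rw [hfix]; exact hAH hσ
  apply hg1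
  refine AlgEquiv.ext fun x => ?_
  have h1 := hσg x
  have h2 : σ (x : Qbar) = (x : Qbar) := hσH x
  rw [h2] at h1
  exact (Subtype.ext h1).symm

end Fermat.Agent.S13
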