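import Fermat.Agent.S13.Ladder

/-!
# The number of `n`-torsion points, and the division polynomial
-/

set_option autoImplicit false

namespace Fermat.Agent.S13

open Polynomial Fermat.Agent.S05

variable {G : Type*} [AddCommGroup G] {K : Type*} [Field K] {α β : K}

section

variable [IsAlgClosed K] (c : LegCoord G K α β)

include c in
lemma exists_ξ_eq (x : K) : ∃ Q : G, Q ≠ 0 ∧ c.ξ Q = x := by
  obtain ⟨y, hy⟩ := IsAlgClosed.exists_pow_nat_eq (4 * x * (x - α) * (x - β)) (n := 2) (by norm_num)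
  obtain ⟨Q, hQ, hx, -⟩ := c.exists_pt x y hy
  exact ⟨Q, hQ, hx⟩

/-- the division polynomial -/
theorem exists_divPoly [CharZero K] (hα : α ≠ 0) (hβ : β ≠ 0) (hαβ : α ≠ β) (m : ℕ)
    (hm : 1 ≤ m) :
    ∃ D : K[X], D.natDegree = 2 * m * (m + 1) ∧ D.leadingCoeff = ((2 * m + 1 : ℕ) : K) ∧
      (∀ x, D.IsRoot x ↔ ∃ P : G, P ≠ 0 ∧ (2 * m + 1) • P = 0 ∧ c.ξ P = x) ∧
      (∀ R : Subring K, α ∈ R → β ∈ R → ∀ i, D.coeff i ∈ R) := by
  have h2 : (2 : K) ≠ 0 := two_ne_zero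
  obtain ⟨X₁, Z₁, h₁⟩ := exists_isLad c h2 hα hβ hαβ m
  obtain ⟨X₂, Z₂, h₂⟩ := exists_isLad c h2 hα hβ hαβ (m + 1)
  have hT := topCoeff_oddD c hm h₁ h₂
  have hne : ((2 * m + 1 : ℕ) : K) ≠ 0 := Nat.cast_ne_zero.mpr (by omega)
  refine ⟨oddD X₁ Z₁ X₂ Z₂, hT.natDegree_eq hne, hT.leadingCoeff_eq hne, fun x => ?_,
    fun R ha hb i => ?_⟩
  · constructor
    · intro hx
      obtain ⟨Q, hQ, rfl⟩ := exists_ξ_eq c x
      refine ⟨Q, hQ, ?_, rfl⟩
      by_contra h0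
      exact ((odd_eval c h2 h₁ h₂ Q hQ).2 h0).1 hx
    · rintro ⟨P, hP, h0, rfl⟩
      exact ((odd_eval c h2 h₁ h₂ P hP).1 h0).1
  · obtain ⟨hX₁, hZ₁⟩ := h₁.int R ha hb
    obtain ⟨hX₂, hZ₂⟩ := h₂.int R ha hb
    exact coeff_mem_of_mem_intPoly (sub_mem (mul_mem hX₁ hZ₂) (mul_mem hX₂ hZ₁)) i

include c in
/-- the number of `n`-torsion points -/
theorem card_torsion [CharZero K] (hα : α ≠ 0) (hβ : β ≠ 0) (hαβ : α ≠ β) (n : ℕ) (hn : 2 ≤ n) :
    Nat.card {P : G // n • P = 0} = n ^ 2 := by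
  classical
  have h2 : (2 : K) ≠ 0 := two_ne_zero
  obtain ⟨X, Z, h⟩ := exists_isLad c h2 hα hβ hαβ n
  obtain ⟨M, hM⟩ : ∃ M, n ^ 2 = M + 2 := by
    have : 4 ≤ n ^ 2 := by nlinarith
    exact ⟨n ^ 2 - 2, by omega⟩
  have hMK : (n : K) ^ 2 = (M : K) + 2 := by exact_mod_cast congrArg (Nat.cast : ℕ → K) hM
  have hn0 : (n : K) ^ 2 ≠ 0 := pow_ne_zero _ (Nat.cast_ne_zero.mpr (by omega))
  -- the Wronskian
  set W : K[X] := derivative X * Z - X * derivative Z with hW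
  have tX : TopCoeff X (M + 1 + 1) 1 := h.topX.congr (by omega) rfl
  have tZ : TopCoeff Z (M + 1) ((n : K) ^ 2) := h.topZ.congr (by omega) rfl
  have tW : TopCoeff W (2 * M + 2) ((n : K) ^ 2) :=
    (((tX.derivative.mul tZ).congr (e := 2 * M + 2) (by omega) rfl).sub
      ((tX.mul tZ.derivative).congr (e := 2 * M + 2) (by omega) rfl)).congr rfl (by
        push_cast; rw [hMK]; ring)
  have hW0 : W ≠ 0 := tW.ne_zero hn0
  -- choice of the parameter
  obtain ⟨c₀, hc₀⟩ := Infinite.exists_notMem_finset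
    (({0, α, β} : Finset K) ∪ W.roots.toFinset.image (fun x => X.eval x / Z.eval x))
  simp only [Finset.mem_union, Finset.mem_insert, Finset.mem_singleton, Finset.mem_image,
    Multiset.mem_toFinset, not_or, not_exists, not_and] at hc₀
  obtain ⟨⟨hc0, hcα, hcβ⟩, hbad⟩ := hc₀
  obtain ⟨y₀, hy₀⟩ := IsAlgClosed.exists_pow_nat_eq (4 * c₀ * (c₀ - α) * (c₀ - β)) (n := 2)
    (by norm_num)
  obtain ⟨Q₀, hQ₀, hξ₀, hη₀⟩ := c.exists_pt c₀ y₀ hy₀
  have hy₀0 : y₀ ≠ 0 := by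
    intro h0
    rw [h0] at hy₀
    have h4 : (4 : K) ≠ 0 := by norm_num
    exact mul_ne_zero (mul_ne_zero (mul_ne_zero h4 hc0) (sub_ne_zero.mpr hcα))
      (sub_ne_zero.mpr hcβ) (by rw [← hy₀]; ring)
  have hQ₀2 : Q₀ ≠ -Q₀ := by
    intro h0
    have := c.η_neg Q₀
    rw [← h0, hη₀] at this
    apply hy₀0
    have h3 : 2 * y₀ = 0 := by linear_combination this
    exact (mul_eq_zero.mp h3).resolve_left h2
  set f : K[X] := X - C c₀ * Z with hf
  have tf : TopCoeff f (n ^ 2) 1 :=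
    (h.topX.sub ((h.topZ.weaken (by omega)).C_mul c₀)).congr rfl (by ring)
  have hfdeg : f.natDegree = n ^ 2 := tf.natDegree_eq one_ne_zero
  have hf0 : f ≠ 0 := tf.ne_zero one_ne_zero
  have hZne : ∀ x, f.eval x = 0 → Z.eval x ≠ 0 := by
    intro x hx hz
    obtain ⟨Q, hQ, rfl⟩ := exists_ξ_eq c x
    rw [hf, eval_sub, eval_mul, eval_C, hz, mul_zero, sub_zero] at hx
    by_cases h0 : n • Q = 0
    · exact (h.zero Q hQ h0).2 hx
    · exact (h.ne Q hQ h0).1 hz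
  have hsep : f.Separable := by
    rw [separable_def, Polynomial.isCoprime_iff_aeval_ne_zero_of_isAlgClosed (k := K) K]
    intro x
    by_contra hcon
    push Not at hcon
    obtain ⟨h1, h2'⟩ := hcon
    rw [coe_aeval_eq_eval] at h1 h2'
    have hz := hZne x h1
    rw [hf] at h1 h2'
    simp only [derivative_sub, derivative_mul, derivative_C, zero_mul, zero_add, eval_sub,
      eval_mul, eval_C] at h1 h2'
    refine hbad x ?_ ?_
    · rw [mem_roots hW0, IsRoot.def, hW]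
      simp only [eval_sub, eval_mul]
      linear_combination (eval x Z) * h2' - (eval x (derivative Z)) * h1
    · rw [div_eq_iff hz]
      linear_combination h1
  have hcard : f.roots.toFinset.card = n ^ 2 := by
    rw [Multiset.toFinset_card_of_nodup (nodup_roots hsep), ← hfdeg]
    exact (splits_iff_card_roots.mp (IsAlgClosed.splits f))
  -- roots of `f` and the fibre of `Q₀`
  have hroot : ∀ Q : G, n • Q = Q₀ → f.eval (c.ξ Q) = 0 := by
    intro Q hQ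
    have hQ0 : Q ≠ 0 := by
      rintro rfl
      rw [smul_zero] at hQ
      exact hQ₀ hQ.symm
    obtain ⟨-, hx⟩ := h.ne Q hQ0 (by rw [hQ]; exact hQ₀)
    rw [hQ, hξ₀] at hx
    rw [hf, eval_sub, eval_mul, eval_C, hx, sub_self]
  have hex : ∀ x, f.eval x = 0 → ∃ Q : G, n • Q = Q₀ ∧ c.ξ Q = x := by
    intro x hx
    have hz := hZne x hx
    obtain ⟨Q, hQ, rfl⟩ := exists_ξ_eq c x
    have h0 : n • Q ≠ 0 := fun h0 => hz (h.zero Q hQ h0).1
    obtain ⟨-, hx'⟩ := h.ne Q hQ h0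
    rw [hf, eval_sub, eval_mul, eval_C] at hx
    have : c.ξ (n • Q) = c.ξ Q₀ := by
      rw [hξ₀]
      apply mul_right_cancel₀ hz
      linear_combination hx' + hx
    rcases c.eq_or_eq_neg_of_ξ_eq h0 hQ₀ this with h3 | h3
    · exact ⟨Q, h3, rfl⟩
    · exact ⟨-Q, by rw [smul_neg, h3, neg_neg], c.ξ_neg Q⟩
  -- the fibre
  have e1 : Nat.card {Q : G // n • Q = Q₀} = n ^ 2 := by
    rw [← hcard, ← Fintype.card_coe, ← Nat.card_eq_fintype_card]
    refine Nat.card_congr (Equiv.ofBijective (fun Q => ⟨c.ξ Q.1, ?_⟩) ⟨?_, ?_⟩)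
    · rw [Multiset.mem_toFinset, mem_roots hf0]
      exact hroot Q.1 Q.2
    · rintro ⟨Q, hQ⟩ ⟨Q', hQ'⟩ hQQ
      simp only [Subtype.mk.injEq] at hQQ
      have hne : ∀ R : G, n • R = Q₀ → R ≠ 0 := by
        rintro R hR rfl
        rw [smul_zero] at hR
        exact hQ₀ hR.symm
      apply Subtype.ext
      rcases c.eq_or_eq_neg_of_ξ_eq (hne Q hQ) (hne Q' hQ') hQQ with h3 | h3
      · exact h3
      · exfalso
        apply hQ₀2
        change Q = -Q' at h3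
        rw [← hQ', ← smul_neg, ← h3, hQ, hQ']
    · rintro ⟨x, hx⟩
      rw [Multiset.mem_toFinset, mem_roots hf0] at hx
      obtain ⟨Q, hQ, hQx⟩ := hex x hx
      exact ⟨⟨Q, hQ⟩, Subtype.ext hQx⟩
  -- translate
  obtain ⟨x₁, hx₁⟩ := IsAlgClosed.exists_root f (by
    rw [degree_eq_natDegree hf0, hfdeg]
    have : n ^ 2 ≠ 0 := by positivity
    exact_mod_cast this)
  obtain ⟨Q₁, hQ₁, -⟩ := hex x₁ hx₁
  rw [← e1]
  refine Nat.card_congr ⟨fun P => ⟨P.1 + Q₁, by rw [smul_add, P.2, hQ₁, zero_add]⟩,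
    fun Q => ⟨Q.1 - Q₁, by rw [smul_sub, Q.2, hQ₁, sub_self]⟩, fun P => ?_, fun Q => ?_⟩
  · apply Subtype.ext; simp
  · apply Subtype.ext; simp

end

end Fermat.Agent.S13
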